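import Fermat.Agent.MLT.ModTransfer.Torsion
import Fermat.Agent.Galois.ResidualAttachedFinal
import Fermat.Agent.Basic.FreyModularity

/-!
# Transfer of residual modularity between models and curves

A residual witness may be checked outside any finite set of primes, and on any integral model of
any curve with the same traces on `p`-torsion: the attached residual representation and Frobenius
density propagate the congruence to every good prime.

The `p`-adic attachment enters as the hypothesis `Galois.PadicAttachment` (the shape of S30).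
-/

set_option autoImplicit false

noncomputable section

open Polynomial

namespace FermatLib.MLT

open WeierstrassCurve WeierstrassCurve.Affine.Point
open scoped WeierstrassCurve.Affine

local notation "Ω" => AlgebraicClosure ℚ
local notation "Γℚ" => (AlgebraicClosure ℚ ≃ₐ[ℚ] AlgebraicClosure ℚ)
local notation "ZbarC" => integralClosure ℤ ℂ

variable {W W' : WeierstrassCurve ℤ} {p M : ℕ}

/-- Congruences outside a finite set identify the representation attached to an eigenform with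
`E[p]`, on characteristic polynomials. -/
theorem exists_attached_charpoly_eq (hattach : Galois.PadicAttachment) [Fact p.Prime]
    (hΔ : W.Δ ≠ 0) (hM0 : M ≠ 0) {f : CuspForm (CongruenceSubgroup.Gamma0 M) 2}
    (hf : f.IsNormalizedEigenform) {k : Type} [Field k] [CharP k p] (φ : ZbarC →+* k)
    (S : Finset ℕ)
    (h : ∀ ℓ : ℕ, ℓ.Prime → W.IsGoodPrimeFor ℓ → ¬ ℓ ∣ M → ℓ ≠ p → ℓ ∉ S →
      ∃ a : ZbarC, (a : ℂ) = ModularFormClass.qCoeff f ℓ ∧
        φ a = ((W.apOfModel ℓ : ℤ) : k)) :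
    ∃ ρ : ResidualGaloisRep k, ρ.IsAttachedTo f φ ∧
      (∀ ℓ : ℕ, ℓ.Prime → ¬ ℓ ∣ M * p → ρ.IsUnramifiedAt ℓ) ∧
      ∀ σ : Γℚ, LinearMap.charpoly (ρ.ρ σ) = X ^ 2 -
        C (ZMod.castHom (dvd_refl p) k
          (galoisTrace (K := Ω) ℚ (W.map (Int.castRingHom ℚ)) p σ)) * X +
        C (ZMod.castHom (dvd_refl p) k ((ExtCitation.cycloChar p σ : (ZMod p)ˣ) : ZMod p)) := by
  classical
  have hpp : p.Prime := Fact.out
  have hne : ∀ {q : ℕ}, q.Prime → q ≠ p → (q : k) ≠ 0 := fun hq hqp h0 =>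
    hqp ((Nat.prime_dvd_prime_iff_eq hpp hq).1 ((CharP.cast_eq_zero_iff k p _).1 h0)).symm
  obtain ⟨ρ, hatt, hunr⟩ :=
    Galois.exists_residual_attached_of_padicAttachment hattach hf hpp φ
  refine ⟨ρ, hatt, hunr, fun σ => ?_⟩
  let b := Module.finBasisOfFinrankEq k ρ.V ρ.finrank_eq
  let c : ZMod p →+* k := ZMod.castHom (dvd_refl p) k
  let rW : Γℚ →* Matrix (Fin 2) (Fin 2) k :=
    c.mapMatrix.toMonoidHom.comp (torsionMatrixRep p W hΔ)
  have hrW : ∀ τ : Γℚ, (rW τ).charpoly = X ^ 2 -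
      C (c (galoisTrace (K := Ω) ℚ (W.map (Int.castRingHom ℚ)) p τ)) * X +
        C (c ((ExtCitation.cycloChar p τ : (ZMod p)ˣ) : ZMod p)) := fun τ => by
    change ((torsionMatrixRep p W hΔ τ).map c).charpoly = _
    rw [Matrix.charpoly_map, charpoly_torsionMatrixRep]
    simp
  have hρfin : GaloisFactorsThroughFiniteLevel (Galois.densityMatrixRep b ρ.ρ) := by
    obtain ⟨L, hL, h1⟩ := ρ.factorsThroughFiniteLevel
    exact ⟨L, hL, fun σ hσ => by simp [Galois.densityMatrixRep, h1 σ hσ]⟩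
  have hWfin : GaloisFactorsThroughFiniteLevel rW := by
    obtain ⟨L, hL, h1⟩ := factorsThroughFiniteLevel_torsionMatrixRep (p := p) hΔ
    exact ⟨L, hL, fun σ hσ => by
      change c.mapMatrix (torsionMatrixRep p W hΔ σ) = 1
      rw [h1 σ hσ, map_one]⟩
  let S' : Finset ℕ := S ∪ {p} ∪ W.Δ.natAbs.primeFactors ∪ M.primeFactors
  rw [← Galois.charpoly_densityMatrixRep b, ← hrW]
  refine Galois.matrix_charpoly_eq_of_frobenius (Galois.densityMatrixRep b ρ.ρ) rW hρfin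
    hWfin S' (fun q hq hqS A hA τ hτ => ?_) σ
  simp only [S', Finset.mem_union, Finset.mem_singleton, not_or] at hqS
  have hqg : W.IsGoodPrimeFor q := fun hd => hqS.1.2
    (hq.mem_primeFactors (Int.natCast_dvd.1 hd) (by simpa using hΔ))
  have hqM : ¬ q ∣ M := fun hd => hqS.2 (hq.mem_primeFactors hd hM0)
  obtain ⟨a, ha, hch⟩ := hatt q hq hqM (hne hq hqS.1.1.2) A hA τ hτ
  obtain ⟨a', ha', hmem⟩ := h q hq hqg hqM hqS.1.1.2 hqS.1.1.1
  rw [Galois.charpoly_densityMatrixRep, hch, hrW,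
    galoisTrace_of_isFrobeniusAt hq hqg hqS.1.1.2 hA hτ,
    cycloChar_of_isFrobeniusAt hq hqS.1.1.2 hA hτ, map_intCast c, map_natCast c,
    show a = a' from Subtype.ext (ha.trans ha'.symm), hmem]

/-- An attached representation with the characteristic polynomials of `E[p]` gives the congruence
at every good prime; no further input is needed. -/
theorem residualWitness_of_attached [Fact p.Prime]
    {f : CuspForm (CongruenceSubgroup.Gamma0 M) 2} {k : Type} [Field k] [CharP k p]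
    {φ : ZbarC →+* k} {ρ : ResidualGaloisRep k} (hatt : ρ.IsAttachedTo f φ)
    (hρ : ∀ σ : Γℚ, LinearMap.trace k ρ.V (ρ.ρ σ) = ZMod.castHom (dvd_refl p) k
      (galoisTrace (K := Ω) ℚ (W.map (Int.castRingHom ℚ)) p σ))
    {ℓ : ℕ} (hℓ : ℓ.Prime) (hg : W.IsGoodPrimeFor ℓ) (hℓM : ¬ ℓ ∣ M) (hℓp : ℓ ≠ p) :
    ∃ a : ZbarC, (a : ℂ) = ModularFormClass.qCoeff f ℓ ∧ φ a = ((W.apOfModel ℓ : ℤ) : k) := by
  have hne : (ℓ : k) ≠ 0 := fun h0 => hℓp
    ((Nat.prime_dvd_prime_iff_eq Fact.out hℓ).1 ((CharP.cast_eq_zero_iff k p _).1 h0)).symm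
  obtain ⟨A, hA⟩ := Basic.exists_liesOverPrime hℓ
  obtain ⟨σ, hσ⟩ := Basic.exists_isFrobeniusAt hℓ A hA
  obtain ⟨a, ha, hch⟩ := hatt ℓ hℓ hℓM hne A hA σ hσ
  refine ⟨a, ha, ?_⟩
  rw [← (Galois.trace_det_of_linearMap_charpoly_eq ρ.finrank_eq _ hch).1, hρ,
    galoisTrace_of_isFrobeniusAt hℓ hg hℓp hA hσ, map_intCast]

/-- Residual modularity from an attached representation with the traces of `E[p]`. -/
theorem isResiduallyModularOfLevel_of_attached (hpp : p.Prime)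
    {f : CuspForm (CongruenceSubgroup.Gamma0 M) 2} (hf : f.IsNormalizedEigenform) {k : Type}
    [Field k] [CharP k p] {φ : ZbarC →+* k} {ρ : ResidualGaloisRep k}
    (hatt : ρ.IsAttachedTo f φ)
    (hρ : ∀ σ : Γℚ, LinearMap.trace k ρ.V (ρ.ρ σ) = ZMod.castHom (dvd_refl p) k
      (galoisTrace (K := Ω) ℚ (W.map (Int.castRingHom ℚ)) p σ)) :
    W.IsResiduallyModularOfLevel p M := by
  have : Fact p.Prime := ⟨hpp⟩
  have hmax := Galois.isMaximal_ker_of_charP (p := p) hpp φ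
  refine ⟨f, RingHom.ker φ, hf, hmax, by simp [RingHom.mem_ker], fun ℓ hℓ hg hℓM hℓp => ?_⟩
  obtain ⟨a, ha, he⟩ := residualWitness_of_attached hatt hρ hℓ hg hℓM hℓp
  exact ⟨a, ha, by rw [RingHom.mem_ker, map_sub, map_intCast, he, sub_self]⟩

/-- A residual witness for `W` outside a finite set gives one for every `W'` with the same
traces on `p`-torsion, at every good prime of `W'`. -/
theorem residualWitness_transfer (hattach : Galois.PadicAttachment) [Fact p.Prime]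
    (hΔ : W.Δ ≠ 0)
    (htr : ∀ σ : Γℚ, galoisTrace (K := Ω) ℚ (W.map (Int.castRingHom ℚ)) p σ =
      galoisTrace (K := Ω) ℚ (W'.map (Int.castRingHom ℚ)) p σ)
    {f : CuspForm (CongruenceSubgroup.Gamma0 M) 2} (hf : f.IsNormalizedEigenform)
    {𝔪 : Ideal ZbarC} (hmax : 𝔪.IsMaximal) (hp : (p : ZbarC) ∈ 𝔪) (S : Finset ℕ)
    (h : ∀ ℓ : ℕ, ℓ.Prime → W.IsGoodPrimeFor ℓ → ¬ ℓ ∣ M → ℓ ≠ p → ℓ ∉ S →
      ∃ a : ZbarC, (a : ℂ) = ModularFormClass.qCoeff f ℓ ∧
        a - ((W.apOfModel ℓ : ℤ) : ZbarC) ∈ 𝔪)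
    {ℓ : ℕ} (hℓ : ℓ.Prime) (hg : W'.IsGoodPrimeFor ℓ) (hℓM : ¬ ℓ ∣ M) (hℓp : ℓ ≠ p) :
    ∃ a : ZbarC, (a : ℂ) = ModularFormClass.qCoeff f ℓ ∧
      a - ((W'.apOfModel ℓ : ℤ) : ZbarC) ∈ 𝔪 := by
  have := hmax
  let k := ZbarC ⧸ 𝔪
  let : Field k := Ideal.Quotient.field 𝔪
  have : CharP k p := by
    refine (CharP.charP_iff_prime_eq_zero Fact.out).mpr ?_
    rw [← map_natCast (Ideal.Quotient.mk 𝔪), Ideal.Quotient.eq_zero_iff_mem]
    exact hp
  obtain ⟨ρ, hatt, -, hch⟩ := exists_attached_charpoly_eq hattach hΔ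
    (fun h0 : M = 0 => hℓM (h0 ▸ dvd_zero ℓ)) hf (k := k) (Ideal.Quotient.mk 𝔪) S
    fun q hq hqg hqM hqp hqS => by
      obtain ⟨a, ha, hmem⟩ := h q hq hqg hqM hqp hqS
      exact ⟨a, ha, by rw [Ideal.Quotient.eq.2 hmem, map_intCast]⟩
  obtain ⟨a, ha, he⟩ := residualWitness_of_attached (W := W') hatt (fun σ => by
    rw [(Galois.trace_det_of_linearMap_charpoly_eq ρ.finrank_eq _ (hch σ)).1, htr σ]) hℓ hg hℓM hℓp
  exact ⟨a, ha, by rw [← Ideal.Quotient.eq, he, map_intCast]⟩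

/-- A residual witness outside a finite set is a residual witness. -/
theorem isResiduallyModularOfLevel_of_forall_notMem (hattach : Galois.PadicAttachment)
    (hpp : p.Prime) (hΔ : W.Δ ≠ 0) {f : CuspForm (CongruenceSubgroup.Gamma0 M) 2}
    (hf : f.IsNormalizedEigenform) {𝔪 : Ideal ZbarC} (hmax : 𝔪.IsMaximal) (hp : (p : ZbarC) ∈ 𝔪)
    (S : Finset ℕ)
    (h : ∀ ℓ : ℕ, ℓ.Prime → W.IsGoodPrimeFor ℓ → ¬ ℓ ∣ M → ℓ ≠ p → ℓ ∉ S →
      ∃ a : ZbarC, (a : ℂ) = ModularFormClass.qCoeff f ℓ ∧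
        a - ((W.apOfModel ℓ : ℤ) : ZbarC) ∈ 𝔪) :
    W.IsResiduallyModularOfLevel p M :=
  haveI : Fact p.Prime := ⟨hpp⟩
  ⟨f, 𝔪, hf, hmax, hp, fun _ hℓ hg hℓM hℓp =>
    residualWitness_transfer hattach hΔ (fun _ => rfl) hf hmax hp S h hℓ hg hℓM hℓp⟩

/-- Residual modularity depends only on the traces on `p`-torsion. -/
theorem isResiduallyModularOfLevel_of_galoisTrace_eq (hattach : Galois.PadicAttachment)
    [Fact p.Prime] (hΔ : W.Δ ≠ 0)
    (htr : ∀ σ : Γℚ, galoisTrace (K := Ω) ℚ (W.map (Int.castRingHom ℚ)) p σ =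
      galoisTrace (K := Ω) ℚ (W'.map (Int.castRingHom ℚ)) p σ)
    (hW : W.IsResiduallyModularOfLevel p M) : W'.IsResiduallyModularOfLevel p M := by
  obtain ⟨f, 𝔪, hf, hmax, hp, h⟩ := hW
  exact ⟨f, 𝔪, hf, hmax, hp, fun ℓ hℓ hg hℓM hℓp => residualWitness_transfer hattach hΔ htr hf
    hmax hp ∅ (fun q hq hqg hqM hqp _ => h q hq hqg hqM hqp) hℓ hg hℓM hℓp⟩

/-- Residual modularity does not depend on the integral model. -/
theorem isResiduallyModularOfLevel_iff_of_isIntegralModelOf (hattach : Galois.PadicAttachment)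
    (hpp : p.Prime) {E : WeierstrassCurve ℚ} [E.IsElliptic] (h : W.IsIntegralModelOf E)
    (h' : W'.IsIntegralModelOf E) :
    W.IsResiduallyModularOfLevel p M ↔ W'.IsResiduallyModularOfLevel p M := by
  have : Fact p.Prime := ⟨hpp⟩
  exact ⟨isResiduallyModularOfLevel_of_galoisTrace_eq hattach (Δ_ne_zero_of_isIntegralModelOf h)
      (galoisTrace_eq_of_isIntegralModelOf h h'),
    isResiduallyModularOfLevel_of_galoisTrace_eq hattach (Δ_ne_zero_of_isIntegralModelOf h')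
      (galoisTrace_eq_of_isIntegralModelOf h' h)⟩

/-- `ModularRepOfLevel` may be read on the integral Frey curve. -/
theorem modularRepOfLevel_iff (hattach : Galois.PadicAttachment) (P : FreyPackage) (N : ℕ) :
    P.ModularRepOfLevel N ↔ P.freyCurveInt.IsResiduallyModularOfLevel P.p N := by
  have := Basic.Frey.freyCurve_isElliptic P
  constructor
  · rintro ⟨f, W, 𝔪, hf, hW, hmax, hp, h⟩
    exact (isResiduallyModularOfLevel_iff_of_isIntegralModelOf hattach P.pp hW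
      (Basic.Frey.isIntegralModelOf_freyCurveInt P)).1 ⟨f, 𝔪, hf, hmax, hp, h⟩
  · rintro ⟨f, 𝔪, hf, hmax, hp, h⟩
    exact ⟨f, P.freyCurveInt, 𝔪, hf, Basic.Frey.isIntegralModelOf_freyCurveInt P, hmax, hp, h⟩

/-- An element of `ℤ̄` lying in maximal ideals over infinitely many primes is zero. -/
theorem eq_zero_of_infinite_residueChar {x : ZbarC} {s : Set ℕ} (hs : s.Infinite)
    (h : ∀ p ∈ s, p.Prime ∧ ∃ 𝔪 : Ideal ZbarC, 𝔪.IsMaximal ∧ (p : ZbarC) ∈ 𝔪 ∧ x ∈ 𝔪) :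
    x = 0 := by
  by_contra hx
  have hint : IsIntegral ℤ x := Algebra.IsIntegral.isIntegral x
  have hc : (minpoly ℤ x).coeff 0 ≠ 0 := by
    intro h0
    obtain ⟨g, hg⟩ := X_dvd_iff.2 h0
    have hgm : g.Monic := Monic.of_mul_monic_left monic_X (hg ▸ minpoly.monic hint)
    have hgx : aeval x g = 0 := by
      have := congrArg (aeval x) hg
      rw [minpoly.aeval, map_mul, aeval_X] at this
      exact (mul_eq_zero.1 this.symm).resolve_left hx
    have hle := natDegree_le_natDegree (minpoly.min ℤ x hgm hgx)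
    rw [hg, natDegree_mul X_ne_zero hgm.ne_zero, natDegree_X] at hle
    omega
  refine hs (Set.Finite.subset ((minpoly ℤ x).coeff 0).natAbs.primeFactors.finite_toSet
    fun p hp => ?_)
  obtain ⟨hpp, 𝔪, hmax, hpm, hxm⟩ := h p hp
  have hev : (((minpoly ℤ x).coeff 0 : ℤ) : ZbarC) ∈ 𝔪 := by
    obtain ⟨g, hg⟩ := X_dvd_sub_C (p := minpoly ℤ x)
    have h0 := congrArg (aeval x) hg
    rw [map_sub, minpoly.aeval, aeval_C, map_mul, aeval_X, zero_sub, algebraMap_int_eq,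
      eq_intCast] at h0
    rw [← neg_mem_iff, h0]
    exact 𝔪.mul_mem_right _ hxm
  rw [Finset.mem_coe]
  refine hpp.mem_primeFactors ?_ (by simpa using hc)
  rw [← Int.natCast_dvd]
  by_contra hnd
  obtain ⟨u, v, huv⟩ := (Int.prime_iff_natAbs_prime.2 (by simpa using hpp) :
    Prime (p : ℤ)).coprime_iff_not_dvd.2 hnd
  have e : (u : ZbarC) * (p : ZbarC) + (v : ZbarC) * ((minpoly ℤ x).coeff 0 : ℤ) = 1 := by
    exact_mod_cast congrArg (Int.cast : ℤ → ZbarC) huv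
  exact hmax.ne_top ((Ideal.eq_top_iff_one _).2
    (e ▸ 𝔪.add_mem (𝔪.mul_mem_left _ hpm) (𝔪.mul_mem_left _ hev)))

/-- A modularity witness may be checked outside a finite set of primes. -/
theorem isModularModelOfLevel_of_forall_notMem (hattach : Galois.PadicAttachment)
    (hΔ : W.Δ ≠ 0) {f : CuspForm (CongruenceSubgroup.Gamma0 M) 2}
    (hf : f.IsNormalizedEigenform) (S : Finset ℕ)
    (h : ∀ ℓ : ℕ, ℓ.Prime → W.IsGoodPrimeFor ℓ → ¬ ℓ ∣ M → ℓ ∉ S →
      ModularFormClass.qCoeff f ℓ = (W.apOfModel ℓ : ℂ)) :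
    W.IsModularModelOfLevel M := by
  refine ⟨f, hf, fun ℓ hℓ hg hℓM => ?_⟩
  have key : ∀ p : ℕ, p.Prime → p ≠ ℓ → ∃ (𝔪 : Ideal ZbarC) (a : ZbarC), 𝔪.IsMaximal ∧
      (p : ZbarC) ∈ 𝔪 ∧ (a : ℂ) = ModularFormClass.qCoeff f ℓ ∧
        a - ((W.apOfModel ℓ : ℤ) : ZbarC) ∈ 𝔪 := fun p hpp hne => by
    have : Fact p.Prime := ⟨hpp⟩
    obtain ⟨𝔪, hmax, hpm⟩ := FLTPrelim.exists_maximalIdeal_natCast_prime_mem hpp
    obtain ⟨a, ha, hmem⟩ := residualWitness_transfer hattach (p := p) hΔ (fun _ => rfl) hf hmax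
      hpm S (fun q hq hqg hqM _ hqS =>
        ⟨(W.apOfModel q : ZbarC), by simp [h q hq hqg hqM hqS], by simp⟩)
      hℓ hg hℓM hne.symm
    exact ⟨𝔪, a, hmax, hpm, ha, hmem⟩
  obtain ⟨p₀, hp₀⟩ := (Nat.infinite_setOfPred_prime.sdiff (Set.finite_singleton ℓ)).nonempty
  obtain ⟨-, a, -, -, ha, -⟩ := key p₀ hp₀.1 (by simpa using hp₀.2)
  have hx : a - ((W.apOfModel ℓ : ℤ) : ZbarC) = 0 := by
    refine eq_zero_of_infinite_residueChar
      (Nat.infinite_setOfPred_prime.sdiff (Set.finite_singleton ℓ)) fun p hp => ⟨hp.1, ?_⟩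
    obtain ⟨𝔪, a', hmax, hpm, ha', hmem⟩ := key p hp.1 (by simpa using hp.2)
    exact ⟨𝔪, hmax, hpm, Subtype.ext (ha.trans ha'.symm) ▸ hmem⟩
  rw [← ha, sub_eq_zero.1 hx]
  simp

end FermatLib.MLT
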