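import Fermat.Agent.EC.WeilPairing
import Fermat.Agent.EC.FrobeniusRelation
import Fermat.Agent.Mazur.GunitCyclo
import Fermat.Agent.Galois.TransferCyclo
import Fermat.Agent.Galois.FrobeniusCharpoly
import Fermat.Agent.Descent.ThreeFiveModel
import Fermat.Prelude.Def_FLTPrelim_ModularRep

/-!
# Traces of Frobenius on `E[p]` of integral models and congruences

The equality `galoisTrace W p = galoisTrace W' p` is the invariant through which congruences of
`apOfModel` are transported: it holds for equivariantly isomorphic torsion, for two integral models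
of one curve, and as soon as the `aℓ` are congruent outside a finite set of primes.
-/

set_option autoImplicit false

noncomputable section

namespace FermatLib.MLT

open WeierstrassCurve WeierstrassCurve.Affine.Point
open scoped WeierstrassCurve.Affine

local notation "Ω" => AlgebraicClosure ℚ
local notation "Γℚ" => (AlgebraicClosure ℚ ≃ₐ[ℚ] AlgebraicClosure ℚ)

variable {W W' : WeierstrassCurve ℤ} {p ℓ : ℕ}

/-- The generic fibre of a model with nonzero discriminant is elliptic. -/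
theorem isElliptic_map_intCast (hΔ : W.Δ ≠ 0) : (W.map (Int.castRingHom ℚ)).IsElliptic :=
  ⟨isUnit_iff_ne_zero.2 (by simpa using hΔ)⟩

theorem Δ_ne_zero_of_isGoodPrimeFor (hg : W.IsGoodPrimeFor ℓ) : W.Δ ≠ 0 := fun h =>
  hg (h ▸ dvd_zero _)

/-- An integral model of an elliptic curve has nonzero discriminant. -/
theorem Δ_ne_zero_of_isIntegralModelOf {E : WeierstrassCurve ℚ} [E.IsElliptic]
    (h : W.IsIntegralModelOf E) : W.Δ ≠ 0 := by
  obtain ⟨C, hC⟩ := h
  intro h0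
  have h2 : (C • E).Δ ≠ 0 := (C • E).isUnit_Δ.ne_zero
  simp [hC, h0] at h2

/-- The cyclotomic character at a Frobenius. -/
theorem cycloChar_of_isFrobeniusAt [Fact p.Prime] (hℓ : ℓ.Prime) (hℓp : ℓ ≠ p)
    {A : ValuationSubring Ω} (hA : A.LiesOverPrime ℓ) {σ : Γℚ} (hσ : A.IsFrobeniusAt σ ℓ) :
    ((ExtCitation.cycloChar p σ : (ZMod p)ˣ) : ZMod p) = (ℓ : ZMod p) := by
  obtain ⟨ζ, hζ⟩ := Mazur.exists_isPrimitiveRoot_qbar p
  exact Mazur.cycloChar_eq_of_apply_eq p hζ σ (Galois.apply_eq_pow_of_isFrobeniusAt A hℓ hA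
    (fun h => hℓp ((Nat.prime_dvd_prime_iff_eq hℓ Fact.out).1 h)) hσ hζ)

/-- The determinant on `E[p]` is the cyclotomic character. -/
theorem det_torsion_eq_cycloChar [Fact p.Prime] (hΔ : W.Δ ≠ 0) (σ : Γℚ) :
    LinearMap.det (galoisRepModuleEnd (K := Ω) ℚ (W.map (Int.castRingHom ℚ)) p σ) =
      ((ExtCitation.cycloChar p σ : (ZMod p)ˣ) : ZMod p) := by
  have := isElliptic_map_intCast hΔ
  rw [ExtCitation.coe_cycloChar,
    ← EC.galoisRepDet_coe_eq_cycloExp (W.map (Int.castRingHom ℚ)) p σ, galoisRepDet_apply,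
    LinearEquiv.coe_det]
  rfl

/-- The determinant of a Frobenius on `E[p]`. -/
theorem det_torsion_of_isFrobeniusAt [Fact p.Prime] (hΔ : W.Δ ≠ 0) (hℓ : ℓ.Prime) (hℓp : ℓ ≠ p)
    {A : ValuationSubring Ω} (hA : A.LiesOverPrime ℓ) {σ : Γℚ} (hσ : A.IsFrobeniusAt σ ℓ) :
    LinearMap.det (galoisRepModuleEnd (K := Ω) ℚ (W.map (Int.castRingHom ℚ)) p σ) =
      (ℓ : ZMod p) :=
  (det_torsion_eq_cycloChar hΔ σ).trans (cycloChar_of_isFrobeniusAt hℓ hℓp hA hσ)

/-- The trace of a Frobenius on `E[p]` at a good prime. -/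
theorem galoisTrace_of_isFrobeniusAt [Fact p.Prime] (hℓ : ℓ.Prime) (hg : W.IsGoodPrimeFor ℓ)
    (hℓp : ℓ ≠ p) {A : ValuationSubring Ω} (hA : A.LiesOverPrime ℓ) {σ : Γℚ}
    (hσ : A.IsFrobeniusAt σ ℓ) :
    galoisTrace (K := Ω) ℚ (W.map (Int.castRingHom ℚ)) p σ = ((W.apOfModel ℓ : ℤ) : ZMod p) :=
  EC.galoisTrace_frobenius_of_det hℓ hg hA hσ hℓp
    (det_torsion_of_isFrobeniusAt (Δ_ne_zero_of_isGoodPrimeFor hg) hℓ hℓp hA hσ)

theorem finite_torsion (hΔ : W.Δ ≠ 0) (hp : p ≠ 0) :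
    Finite (Submodule.torsionBy ℤ ((W.map (Int.castRingHom ℚ))⁄Ω).Point (p : ℤ)) :=
  haveI := isElliptic_map_intCast hΔ
  EC.finite_torsionBy ((W.map (Int.castRingHom ℚ))⁄Ω).toAffine hp

theorem finrank_torsion [Fact p.Prime] (hΔ : W.Δ ≠ 0) :
    Module.finrank (ZMod p)
      (Submodule.torsionBy ℤ ((W.map (Int.castRingHom ℚ))⁄Ω).Point (p : ℤ)) = 2 :=
  haveI := isElliptic_map_intCast hΔ
  EC.finrank_torsionBy_baseChange _ (Nat.cast_ne_zero.2 (Fact.out : p.Prime).ne_zero)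

/-- `E[p]` as a matrix representation. -/
def torsionMatrixRep (p : ℕ) [Fact p.Prime] (W : WeierstrassCurve ℤ) (hΔ : W.Δ ≠ 0) :
    Γℚ →* Matrix (Fin 2) (Fin 2) (ZMod p) :=
  haveI := finite_torsion hΔ (Fact.out : p.Prime).ne_zero
  Galois.densityMatrixRep
    (Module.finBasisOfFinrankEq (ZMod p)
      (Submodule.torsionBy ℤ ((W.map (Int.castRingHom ℚ))⁄Ω).Point (p : ℤ))
      (finrank_torsion hΔ))
    (galoisRepModuleEnd ℚ (W.map (Int.castRingHom ℚ)) p)

theorem trace_torsionMatrixRep [Fact p.Prime] (hΔ : W.Δ ≠ 0) (σ : Γℚ) :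
    (torsionMatrixRep p W hΔ σ).trace =
      galoisTrace (K := Ω) ℚ (W.map (Int.castRingHom ℚ)) p σ :=
  haveI := finite_torsion hΔ (Fact.out : p.Prime).ne_zero
  (LinearMap.trace_eq_matrix_trace _ _ _).symm

theorem det_torsionMatrixRep [Fact p.Prime] (hΔ : W.Δ ≠ 0) (σ : Γℚ) :
    (torsionMatrixRep p W hΔ σ).det = ((ExtCitation.cycloChar p σ : (ZMod p)ˣ) : ZMod p) :=
  haveI := finite_torsion hΔ (Fact.out : p.Prime).ne_zero
  (LinearMap.det_toMatrix _ _).trans (det_torsion_eq_cycloChar hΔ σ)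

theorem charpoly_torsionMatrixRep [Fact p.Prime] (hΔ : W.Δ ≠ 0) (σ : Γℚ) :
    (torsionMatrixRep p W hΔ σ).charpoly = Polynomial.X ^ 2 -
      Polynomial.C (galoisTrace (K := Ω) ℚ (W.map (Int.castRingHom ℚ)) p σ) * Polynomial.X +
      Polynomial.C ((ExtCitation.cycloChar p σ : (ZMod p)ˣ) : ZMod p) := by
  rw [Matrix.charpoly_fin_two, trace_torsionMatrixRep, det_torsionMatrixRep]

theorem factorsThroughFiniteLevel_torsionMatrixRep [Fact p.Prime] (hΔ : W.Δ ≠ 0) :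
    GaloisFactorsThroughFiniteLevel (torsionMatrixRep p W hΔ) := by
  have := isElliptic_map_intCast hΔ
  obtain ⟨L, hL, h1⟩ := EC.galoisFactorsThroughFiniteLevel_torsion (W.map (Int.castRingHom ℚ))
    (Fact.out : p.Prime).ne_zero
  exact ⟨L, hL, fun σ hσ => by simp [torsionMatrixRep, Galois.densityMatrixRep, h1 σ hσ]⟩

/-- Equivariantly isomorphic torsion has equal traces. -/
theorem galoisTrace_eq_of_equiv [Fact p.Prime] (hΔ : W.Δ ≠ 0)
    (e : Submodule.torsionBy ℤ ((W.map (Int.castRingHom ℚ))⁄Ω).Point (p : ℤ) ≃+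
      Submodule.torsionBy ℤ ((W'.map (Int.castRingHom ℚ))⁄Ω).Point (p : ℤ))
    (he : ∀ (σ : Γℚ) (P : Submodule.torsionBy ℤ ((W.map (Int.castRingHom ℚ))⁄Ω).Point (p : ℤ)),
      e (σ • P) = σ • e P) (σ : Γℚ) :
    galoisTrace (K := Ω) ℚ (W.map (Int.castRingHom ℚ)) p σ =
      galoisTrace (K := Ω) ℚ (W'.map (Int.castRingHom ℚ)) p σ := by
  have := finite_torsion hΔ (Fact.out : p.Prime).ne_zero
  let l : Submodule.torsionBy ℤ ((W.map (Int.castRingHom ℚ))⁄Ω).Point (p : ℤ) ≃ₗ[ZMod p]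
      Submodule.torsionBy ℤ ((W'.map (Int.castRingHom ℚ))⁄Ω).Point (p : ℤ) :=
    { e with map_smul' := fun c x => ZMod.map_smul e.toAddMonoidHom c x }
  have hc : galoisRepModuleEnd (K := Ω) ℚ (W'.map (Int.castRingHom ℚ)) p σ =
      l.conj (galoisRepModuleEnd (K := Ω) ℚ (W.map (Int.castRingHom ℚ)) p σ) := by
    refine LinearMap.ext fun x => ?_
    obtain ⟨x, rfl⟩ := l.surjective x
    simp only [galoisRepModuleEnd_apply, LinearEquiv.conj_apply, LinearMap.comp_apply,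
      LinearEquiv.coe_coe, LinearEquiv.symm_apply_apply]
    exact (he σ x).symm
  rw [galoisTrace_def, galoisTrace_def, hc, LinearMap.trace_conj']

/-- Two integral models of one elliptic curve have equal traces. -/
theorem galoisTrace_eq_of_isIntegralModelOf [Fact p.Prime] {E : WeierstrassCurve ℚ}
    [E.IsElliptic] (h : W.IsIntegralModelOf E) (h' : W'.IsIntegralModelOf E) (σ : Γℚ) :
    galoisTrace (K := Ω) ℚ (W.map (Int.castRingHom ℚ)) p σ =
      galoisTrace (K := Ω) ℚ (W'.map (Int.castRingHom ℚ)) p σ := by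
  have hΔ := Δ_ne_zero_of_isIntegralModelOf h
  obtain ⟨C, hC⟩ := h
  obtain ⟨C', hC'⟩ := h'
  obtain ⟨e, he⟩ := Descent.exists_torsion_equiv_of_variableChange (W'.map (Int.castRingHom ℚ))
    (W.map (Int.castRingHom ℚ)) (C * C'⁻¹) (by rw [mul_smul, ← hC', inv_smul_smul, hC]) p
  exact galoisTrace_eq_of_equiv hΔ e he σ

end FermatLib.MLT
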